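import Fermat.Agent.S27.DAbs

/-!
# S27, package D: abstract analytic core (moving sections)

`V` is a finite-dimensional complex vector space (in the application `V = L(E₀ + E₁ + R₀)`),
`A i τ`, `B i τ`, `C j τ` are the functionals "value of the section at the point with chart
coordinate `τ`" in the charts at the points of `E₀`, `E₁`, `R₀`; `s₀` is the section `1`.
Derived from the coordinate form of the D-abs core (`DAbs.exists_chart_sum_coord`).
-/

set_option autoImplicit false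

namespace Fermat.Agent.S27.DGlue5906

open Topology Filter

/-- Abstract analytic core of package D, for a finite-dimensional space of sections without
topology. -/
theorem exists_moving_sections
    {V : Type*} [AddCommGroup V] [Module ℂ V] [FiniteDimensional ℂ V] {g r : ℕ}
    (A B : Fin g → ℂ → V →ₗ[ℂ] ℂ) (C : Fin r → ℂ → V →ₗ[ℂ] ℂ)
    (hA : ∀ i s, AnalyticAt ℂ (fun τ => A i τ s) 0)
    (hB : ∀ i s, AnalyticAt ℂ (fun τ => B i τ s) 0)
    (hC : ∀ j s, AnalyticAt ℂ (fun τ => C j τ s) 0)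
    (s₀ : V) (hs₀ : s₀ ≠ 0)
    (hA0 : ∀ i, A i 0 s₀ = 0) (hB0 : ∀ i, B i 0 s₀ = 0) (hC0 : ∀ j, C j 0 s₀ = 0)
    (hA1 : ∀ i, deriv (fun τ => A i τ s₀) 0 ≠ 0)
    (hC1 : ∀ j, deriv (fun τ => C j τ s₀) 0 ≠ 0)
    (hAB : Function.Surjective
      (fun s : V => ((fun i => A i 0 s, fun i => B i 0 s) : (Fin g → ℂ) × (Fin g → ℂ))))
    (hBC : Function.Surjective
      (fun s : V => ((fun i => B i 0 s, fun j => C j 0 s) : (Fin g → ℂ) × (Fin r → ℂ)))) :
    ∃ (u : (Fin g → ℂ) × (Fin g → ℂ) → (Fin g → ℂ))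
      (ρ : (Fin g → ℂ) × (Fin g → ℂ) → (Fin r → ℂ))
      (s₁ s₂ : (Fin g → ℂ) × (Fin g → ℂ) → V)
      (u' : ((Fin g → ℂ) × (Fin g → ℂ)) →L[ℂ] (Fin g → ℂ)),
      HasStrictFDerivAt u u' 0 ∧ u 0 = 0 ∧ ContinuousAt ρ 0 ∧ ρ 0 = 0 ∧
      ∀ᶠ p in 𝓝 (0 : (Fin g → ℂ) × (Fin g → ℂ)),
        s₁ p ≠ 0 ∧ s₂ p ≠ 0 ∧
        (∀ i, A i (p.1 i) (s₁ p) = 0) ∧ (∀ i, B i (p.2 i) (s₁ p) = 0) ∧
        (∀ j, C j (ρ p j) (s₁ p) = 0) ∧
        (∀ i, B i 0 (s₂ p) = 0) ∧ (∀ j, C j (ρ p j) (s₂ p) = 0) ∧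
        (∀ i, A i (u p i) (s₂ p) = 0) := by
  classical
  let b : Module.Basis (Fin (Module.finrank ℂ V)) ℂ V := Module.finBasis ℂ V
  let toV : (Fin (Module.finrank ℂ V) → ℂ) → V := fun s => b.equivFun.symm s
  have htoV : ∀ (L : V →ₗ[ℂ] ℂ) (s : Fin (Module.finrank ℂ V) → ℂ),
      ∑ k, s k * L (b k) = L (toV s) := by
    intro L s
    simp only [toV, Module.Basis.equivFun_symm_apply, map_sum, map_smul, smul_eq_mul]
  have hrepr : ∀ v : V, toV (b.equivFun v) = v := fun v => b.equivFun.symm_apply_apply v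
  have htoV0 : ∀ s, toV s = 0 → s = 0 := by
    intro s hs
    have : b.equivFun.symm s = b.equivFun.symm 0 := by rw [map_zero]; exact hs
    exact b.equivFun.symm.injective this
  -- derivative of a coordinate sum
  have hderiv : ∀ (L : ℂ → V →ₗ[ℂ] ℂ), (∀ s, AnalyticAt ℂ (fun τ => L τ s) 0) →
      ∑ k, b.equivFun s₀ k * deriv (fun τ => L τ (b k)) 0 = deriv (fun τ => L τ s₀) 0 := by
    intro L hL
    have h1 : HasDerivAt (fun τ => ∑ k, b.equivFun s₀ k * L τ (b k))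
        (∑ k, b.equivFun s₀ k * deriv (fun τ => L τ (b k)) 0) 0 :=
      HasDerivAt.fun_sum fun k _ => ((hL (b k)).differentiableAt.hasDerivAt).const_mul _
    have h2 : (fun τ => ∑ k, b.equivFun s₀ k * L τ (b k)) = fun τ => L τ s₀ := by
      funext τ
      rw [htoV, hrepr]
    rw [h2] at h1
    exact h1.deriv.symm
  obtain ⟨s₁, s₂, ρ, u, s₁', s₂', ρ', u', hs₁, hs₂, hρ, hu, hs₁0, hs₂0, hρ0, hu0, hev⟩ :=
    DAbs.exists_chart_sum_coord
      (fun i k τ => A i τ (b k)) (fun i k τ => B i τ (b k)) (fun j k τ => C j τ (b k))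
      (fun i k => deriv (fun τ => A i τ (b k)) 0) (fun i k => deriv (fun τ => B i τ (b k)) 0)
      (fun j k => deriv (fun τ => C j τ (b k)) 0)
      (fun i k => (hA i (b k)).hasStrictDerivAt) (fun i k => (hB i (b k)).hasStrictDerivAt)
      (fun j k => (hC j (b k)).hasStrictDerivAt)
      (b.equivFun s₀)
      (fun i => by rw [htoV (A i 0), hrepr]; exact hA0 i)
      (fun i => by rw [htoV (B i 0), hrepr]; exact hB0 i)
      (fun j => by rw [htoV (C j 0), hrepr]; exact hC0 j)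
      (fun i => by rw [hderiv (A i) (hA i)]; exact hA1 i)
      (fun j => by rw [hderiv (C j) (hC j)]; exact hC1 j)
      (by
        intro y
        obtain ⟨v, hv⟩ := hAB y
        refine ⟨b.equivFun v, ?_⟩
        rw [← hv]
        refine Prod.ext (funext fun i => ?_) (funext fun i => ?_)
        · show ∑ k, b.equivFun v k * A i 0 (b k) = A i 0 v
          rw [htoV (A i 0), hrepr]
        · show ∑ k, b.equivFun v k * B i 0 (b k) = B i 0 v
          rw [htoV (B i 0), hrepr])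
      (by
        intro y
        obtain ⟨v, hv⟩ := hBC y
        refine ⟨b.equivFun v, ?_⟩
        rw [← hv]
        refine Prod.ext (funext fun i => ?_) (funext fun j => ?_)
        · show ∑ k, b.equivFun v k * B i 0 (b k) = B i 0 v
          rw [htoV (B i 0), hrepr]
        · show ∑ k, b.equivFun v k * C j 0 (b k) = C j 0 v
          rw [htoV (C j 0), hrepr])
  have hs₀c : b.equivFun s₀ ≠ 0 := by
    intro h
    apply hs₀
    rw [← hrepr s₀, h]
    exact map_zero _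
  have hne1 : ∀ᶠ p in 𝓝 (0 : (Fin g → ℂ) × (Fin g → ℂ)), s₁ p ≠ 0 :=
    hs₁.continuousAt.eventually_ne (by rw [hs₁0]; exact hs₀c)
  have hne2 : ∀ᶠ p in 𝓝 (0 : (Fin g → ℂ) × (Fin g → ℂ)), s₂ p ≠ 0 :=
    hs₂.continuousAt.eventually_ne (by rw [hs₂0]; exact hs₀c)
  refine ⟨u, ρ, fun p => toV (s₁ p), fun p => toV (s₂ p), u', hu, hu0, hρ.continuousAt, hρ0, ?_⟩
  filter_upwards [hev, hne1, hne2] with p hp h1 h2
  obtain ⟨e1, e2, e3, e4, e5, e6⟩ := hp
  refine ⟨fun h => h1 (htoV0 _ h), fun h => h2 (htoV0 _ h), fun i => ?_, fun i => ?_, fun j => ?_,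
    fun i => ?_, fun j => ?_, fun i => ?_⟩
  · rw [← htoV]; exact e1 i
  · rw [← htoV]; exact e2 i
  · rw [← htoV]; exact e3 j
  · rw [← htoV]; exact e4 i
  · rw [← htoV]; exact e5 j
  · rw [← htoV]; exact e6 i

end Fermat.Agent.S27.DGlue5906
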