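import Fermat.Agent.S27.DGlue5906.Value
import Fermat.Agent.S27.DGlue5906.Core

/-!
# S27, package D (concrete layer): sum of chart points in the divisor class group
-/

set_option autoImplicit false

namespace Fermat.Agent.S27.DGlue5906

open AlgebraicCurve Topology Filter Fermat.Agent.S24.A564.SO

section General

variable {K F : Type*} [Field K] [Field F] [Algebra K F]

theorem IsValue.ord_eq_zero {v : Place K F} {f : F} {c : K} (h : IsValue v f c) (hc : c ≠ 0) :
    v.ord f = 0 := by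
  have h0 := Place_ord_nonneg_of_mem v h.mem
  by_contra hne
  have hpos : 0 < v.ord f := lt_of_le_of_ne h0 (Ne.symm hne)
  exact hc (h.unique (IsValue.zero_iff.mpr (Or.inr hpos)))

variable {ι : Type*} [Fintype ι]

theorem sum_single_apply_self (Q : ι → Place K F) (hQ : Function.Injective Q) (a : ι) :
    (∑ b, Finsupp.single (Q b) (1 : ℤ)) (Q a) = 1 := by
  classical
  rw [Finsupp.finsetSum_apply]
  rw [Finset.sum_eq_single a]
  · simp
  · intro b _ hb
    rw [Finsupp.single_apply, if_neg]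
    exact fun h => hb (hQ h)
  · intro h; exact absurd (Finset.mem_univ a) h

theorem sum_single_apply_of_ne (Q : ι → Place K F) (v : Place K F) (hv : ∀ b, Q b ≠ v) :
    (∑ b, Finsupp.single (Q b) (1 : ℤ)) v = 0 := by
  classical
  rw [Finsupp.finsetSum_apply]
  refine Finset.sum_eq_zero fun b _ => ?_
  rw [Finsupp.single_apply, if_neg (hv b)]

theorem sum_single_nonneg (Q : ι → Place K F) (v : Place K F) :
    0 ≤ (∑ b, Finsupp.single (Q b) (1 : ℤ)) v := by
  classical
  rw [Finsupp.finsetSum_apply]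
  refine Finset.sum_nonneg fun b _ => ?_
  rw [Finsupp.single_apply]
  split_ifs <;> simp

theorem degree_sum_single (hdeg1 : ∀ v : Place K F, v.deg = 1) (Q : ι → Place K F) :
    Divisor.degree (∑ b, Finsupp.single (Q b) (1 : ℤ)) = Fintype.card ι := by
  rw [map_sum]
  simp [Divisor.degree_single, hdeg1]

theorem eq_zero_of_nonneg_of_degree_eq_zero (hdeg1 : ∀ v : Place K F, v.deg = 1)
    (E : Divisor K F) (h0 : ∀ v, 0 ≤ E v) (hdeg : Divisor.degree E = 0) : E = 0 := by
  classical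
  have hsum : Divisor.degree E = ∑ v ∈ E.support, E v := by
    unfold Divisor.degree
    rw [Finsupp.liftAddHom_apply, Finsupp.sum]
    refine Finset.sum_congr rfl fun v _ => ?_
    simp [hdeg1]
  rw [hsum] at hdeg
  have := (Finset.sum_eq_zero_iff_of_nonneg (fun v _ => h0 v)).mp hdeg
  ext v
  by_cases hv : v ∈ E.support
  · exact this v hv
  · simpa using hv

/-- If `s ∈ L(D₁ + D₂)` is regular at the points of `D₂` and `D₁` is effective, then
`s ∈ L(D₁)`. -/
theorem mem_rrSpace_of_regular (D₁ D₂ : Divisor K F) {s : F}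
    (hs : s ∈ riemannRochSpace (D₁ + D₂)) (h1 : ∀ v, 0 ≤ D₁ v)
    (hreg : ∀ v, D₂ v ≠ 0 → s ∈ v.toValuationSubring) : s ∈ riemannRochSpace D₁ := by
  rw [mem_riemannRochSpace_iff] at hs ⊢
  intro v
  rcases hs v with h | h
  · exact Or.inl h
  · right
    by_cases h2 : D₂ v = 0
    · rw [Finsupp.add_apply, h2] at h
      omega
    · have h3 := Place_ord_nonneg_of_mem v (hreg v h2)
      have h4 := h1 v
      omega

/-- A linear map whose kernel is at most a line and whose source has one more dimension than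
its target is onto. -/
theorem surjective_of_ker_le {V W : Type*} [AddCommGroup V] [Module ℂ V] [FiniteDimensional ℂ V]
    [AddCommGroup W] [Module ℂ W] [FiniteDimensional ℂ W]
    (Φ : V →ₗ[ℂ] W) (s₀ : V) (hker : ∀ s, Φ s = 0 → ∃ c : ℂ, s = c • s₀)
    (hdim : Module.finrank ℂ W + 1 ≤ Module.finrank ℂ V) : Function.Surjective Φ := by
  have h1 : LinearMap.ker Φ ≤ Submodule.span ℂ {s₀} := by
    intro s hs
    obtain ⟨c, rfl⟩ := hker s (LinearMap.mem_ker.mp hs)
    exact Submodule.smul_mem _ _ (Submodule.mem_span_singleton_self s₀)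
  have h0 : Module.finrank ℂ (Submodule.span ℂ {s₀}) ≤ 1 := by
    rcases eq_or_ne s₀ 0 with h | h
    · rw [h, Submodule.span_zero_singleton, finrank_bot]
      exact Nat.zero_le 1
    · exact (finrank_span_singleton h).le
  have h2 : Module.finrank ℂ (LinearMap.ker Φ) ≤ 1 := (Submodule.finrank_mono h1).trans h0
  have h3 := LinearMap.finrank_range_add_finrank_ker Φ
  have h4 : Module.finrank ℂ (LinearMap.range Φ) = Module.finrank ℂ W := by
    have := Submodule.finrank_le (LinearMap.range Φ)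
    omega
  exact LinearMap.range_eq_top.mp (Submodule.eq_top_of_finrank_eq h4)

end General

section Chart

variable {F : Type*} [Field F] [Algebra ℂ F]

/-- Germ at `0` of an analytic chart `κ` with local parameter `t`:
`t - τ` is a uniformizer at `κ τ`, and every `f` regular at `κ 0` has an analytic value
function near `0`. -/
structure IsChartGerm (κ : ℂ → Place ℂ F) (t : F) : Prop where
  unif : ∀ᶠ τ in 𝓝 (0 : ℂ), (κ τ).ord (t - algebraMap ℂ F τ) = 1
  holo : ∀ f : F, f ∈ (κ 0).toValuationSubring →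
    ∃ h : ℂ → ℂ, AnalyticAt ℂ h 0 ∧ ∀ᶠ τ in 𝓝 (0 : ℂ), IsValue (κ τ) f (h τ)

namespace IsChartGerm

variable {κ : ℂ → Place ℂ F} {t : F} (h : IsChartGerm κ t)
include h

theorem ord_base : (κ 0).ord t = 1 := by
  have := h.unif.self_of_nhds
  simpa using this

theorem ne_zero : t ≠ 0 := by
  intro h0
  have := h.ord_base
  rw [h0, Place.ord_zero] at this
  exact absurd this (by norm_num)

theorem isValue : ∀ᶠ τ in 𝓝 (0 : ℂ), IsValue (κ τ) t τ := by
  filter_upwards [h.unif] with τ hτ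
  unfold IsValue
  rw [adicValuation_lt_one_iff]
  right; omega

theorem ne_base : ∀ᶠ τ in 𝓝 (0 : ℂ), τ ≠ 0 → κ τ ≠ κ 0 := by
  filter_upwards [h.isValue] with τ hτ hne heq
  have h0 : IsValue (κ 0) t 0 := h.isValue.self_of_nhds
  rw [heq] at hτ
  exact hne (hτ.unique h0)

end IsChartGerm

end Chart

section Family

variable {F : Type*} [Field F] [Algebra ℂ F]
variable {ι : Type*} [Fintype ι]
variable (Kc : ι → ℂ → Place ℂ F) (T : ι → F)

/-- The divisor of base points of a family of charts. -/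
noncomputable def baseDiv : Divisor ℂ F := ∑ a, Finsupp.single (Kc a 0) (1 : ℤ)

/-- A chart coordinate `τ` in the chart `a` is *good*. -/
structure Good (a : ι) (τ : ℂ) : Prop where
  val : IsValue (Kc a τ) (T a) τ
  ord : (Kc a τ).ord (T a) = baseDiv Kc (Kc a τ)

theorem eventually_good (hK : ∀ a, IsChartGerm (Kc a) (T a))
    (hdisj : ∀ a b, a ≠ b → ∀ᶠ p in 𝓝 ((0 : ℂ), (0 : ℂ)), Kc a p.1 ≠ Kc b p.2) (a : ι) :
    ∀ᶠ τ in 𝓝 (0 : ℂ), Good Kc T a τ := by
  classical
  have hbase : Function.Injective (fun a => Kc a 0) := by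
    intro a b hab
    by_contra hne
    exact (hdisj a b hne).self_of_nhds hab
  have hten : Tendsto (fun τ : ℂ => (τ, (0 : ℂ))) (𝓝 0) (𝓝 ((0 : ℂ), (0 : ℂ))) :=
    (Continuous.prodMk continuous_id continuous_const).tendsto 0
  have hother : ∀ᶠ τ in 𝓝 (0 : ℂ), ∀ b, a ≠ b → Kc a τ ≠ Kc b 0 := by
    rw [eventually_all]
    intro b
    by_cases hab : a = b
    · exact Eventually.of_forall fun τ h => absurd hab h
    · filter_upwards [hten.eventually (hdisj a b hab)] with τ hτ _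
      exact hτ
  filter_upwards [(hK a).isValue, (hK a).ne_base, hother] with τ h1 h2 h3
  refine ⟨h1, ?_⟩
  by_cases hτ : τ = 0
  · subst hτ
    rw [(hK a).ord_base]
    exact (sum_single_apply_self (fun a => Kc a 0) hbase a).symm
  · rw [h1.ord_eq_zero hτ]
    refine (sum_single_apply_of_ne (fun a => Kc a 0) _ fun b => ?_).symm
    by_cases hab : a = b
    · subst hab
      exact fun h => h2 hτ h.symm
    · exact fun h => h3 b hab h.symm

theorem eventually_good_comp {X : Type*} [TopologicalSpace X] (x₀ : X) (τ : X → ι → ℂ)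
    (hτ : ∀ a, Tendsto (fun x => τ x a) (𝓝 x₀) (𝓝 0))
    (hK : ∀ a, IsChartGerm (Kc a) (T a))
    (hdisj : ∀ a b, a ≠ b → ∀ᶠ p in 𝓝 ((0 : ℂ), (0 : ℂ)), Kc a p.1 ≠ Kc b p.2) :
    ∀ᶠ x in 𝓝 x₀, ∀ a, Good Kc T a (τ x a) := by
  rw [eventually_all]
  intro a
  exact (hτ a).eventually (eventually_good Kc T hK hdisj a)

theorem eventually_injective_comp {X : Type*} [TopologicalSpace X] (x₀ : X) (τ : X → ι → ℂ)
    (hτ : ∀ a, Tendsto (fun x => τ x a) (𝓝 x₀) (𝓝 0))
    (hdisj : ∀ a b, a ≠ b → ∀ᶠ p in 𝓝 ((0 : ℂ), (0 : ℂ)), Kc a p.1 ≠ Kc b p.2) :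
    ∀ᶠ x in 𝓝 x₀, Function.Injective (fun a => Kc a (τ x a)) := by
  have h : ∀ᶠ x in 𝓝 x₀, ∀ a b, a ≠ b → Kc a (τ x a) ≠ Kc b (τ x b) := by
    rw [eventually_all]
    intro a
    rw [eventually_all]
    intro b
    by_cases hab : a = b
    · exact Eventually.of_forall fun x h => absurd hab h
    · have hten : Tendsto (fun x => (τ x a, τ x b)) (𝓝 x₀) (𝓝 ((0 : ℂ), (0 : ℂ))) :=
        (hτ a).prodMk_nhds (hτ b)
      filter_upwards [hten.eventually (hdisj a b hab)] with x hx _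
      exact hx
  filter_upwards [h] with x hx a b hab
  by_contra hne
  exact hx a b hne hab


theorem regular_of_good {a : ι} {τ : ℂ} (hg : Good Kc T a τ)
    (s : ↥(riemannRochSpace (baseDiv Kc))) :
    T a * (s : F) ∈ (Kc a τ).toValuationSubring := by
  rcases eq_or_ne (s : F) 0 with hs | hs
  · rw [hs, mul_zero]; exact zero_mem _
  rcases eq_or_ne (T a) 0 with hT | hT
  · rw [hT, zero_mul]; exact zero_mem _
  apply Place_mem_of_ord_nonneg
  rw [Place.ord_mul _ hT hs, hg.ord]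
  have := (mem_riemannRochSpace_iff.mp s.2 (Kc a τ)).resolve_left hs
  omega

variable [∀ v : Place ℂ F, Module.Finite ℂ v.ResidueField]

open Classical in
/-- The chart-evaluation functional: `s ↦` value of `t_a * s` at the point `κ_a τ`. -/
noncomputable def evalL (a : ι) (τ : ℂ) : ↥(riemannRochSpace (baseDiv Kc)) →ₗ[ℂ] ℂ :=
  if h : ∀ s : ↥(riemannRochSpace (baseDiv Kc)), T a * (s : F) ∈ (Kc a τ).toValuationSubring then
    { toFun := fun s => valueAt (Kc a τ) (T a * (s : F))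
      map_add' := fun s s' => by
        have h1 := isValue_valueAt (Kc a τ) (h s)
        have h2 := isValue_valueAt (Kc a τ) (h s')
        have h3 := h1.add h2
        rw [← mul_add] at h3
        exact valueAt_eq h3
      map_smul' := fun c s => by
        have h1 := isValue_valueAt (Kc a τ) (h s)
        have h3 := h1.smul c
        rw [← mul_smul_comm] at h3
        exact valueAt_eq h3 }
  else 0

theorem evalL_spec {a : ι} {τ : ℂ} (hg : Good Kc T a τ)
    (s : ↥(riemannRochSpace (baseDiv Kc))) :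
    IsValue (Kc a τ) (T a * (s : F)) (evalL Kc T a τ s) := by
  have h : ∀ s : ↥(riemannRochSpace (baseDiv Kc)), T a * (s : F) ∈ (Kc a τ).toValuationSubring :=
    regular_of_good Kc T hg
  unfold evalL
  rw [dif_pos h]
  exact isValue_valueAt (Kc a τ) (h s)

theorem evalL_eq_zero_iff {a : ι} {τ : ℂ} (hg : Good Kc T a τ) (hT : T a ≠ 0)
    (s : ↥(riemannRochSpace (baseDiv Kc))) (hs : (s : F) ≠ 0) :
    evalL Kc T a τ s = 0 ↔ 1 ≤ (Kc a τ).ord (s : F) + baseDiv Kc (Kc a τ) := by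
  have hspec := evalL_spec Kc T hg s
  have hiff : evalL Kc T a τ s = 0 ↔ IsValue (Kc a τ) (T a * (s : F)) 0 :=
    ⟨fun h => h ▸ hspec, fun h => hspec.unique h⟩
  rw [hiff, IsValue.zero_iff, Place.ord_mul _ hT hs, hg.ord]
  constructor
  · rintro (h | h)
    · exact absurd h (mul_ne_zero hT hs)
    · omega
  · intro h; right; omega

omit [∀ v : Place ℂ F, Module.Finite ℂ v.ResidueField] in
/-- The constant function `1` as an element of `L(M)`. -/
noncomputable def oneV : ↥(riemannRochSpace (baseDiv Kc)) :=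
  ⟨1, mem_riemannRochSpace_iff.mpr fun v => Or.inr (by
    rw [Place.ord_one]
    have := sum_single_nonneg (fun a => Kc a 0) v
    unfold baseDiv
    omega)⟩

omit [∀ v : Place ℂ F, Module.Finite ℂ v.ResidueField] in
@[simp] theorem coe_oneV : ((oneV Kc : ↥(riemannRochSpace (baseDiv Kc))) : F) = 1 := rfl

theorem evalL_oneV {a : ι} {τ : ℂ} (hg : Good Kc T a τ) : evalL Kc T a τ (oneV Kc) = τ := by
  have h := evalL_spec Kc T hg (oneV Kc)
  rw [coe_oneV, mul_one] at h
  exact h.unique hg.val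

theorem analyticAt_evalL (hK : ∀ a, IsChartGerm (Kc a) (T a))
    (hdisj : ∀ a b, a ≠ b → ∀ᶠ p in 𝓝 ((0 : ℂ), (0 : ℂ)), Kc a p.1 ≠ Kc b p.2) (a : ι)
    (s : ↥(riemannRochSpace (baseDiv Kc))) :
    AnalyticAt ℂ (fun τ => evalL Kc T a τ s) 0 := by
  have hev := eventually_good Kc T hK hdisj a
  have h0 : Good Kc T a 0 := hev.self_of_nhds
  obtain ⟨h, hh, hval⟩ := (hK a).holo (T a * (s : F)) (regular_of_good Kc T h0 s)
  refine hh.congr ?_
  filter_upwards [hev, hval] with τ hg hv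
  exact hv.unique (evalL_spec Kc T hg s)

theorem evalL_zero_eq_zero_iff {a : ι} (hg : Good Kc T a 0) (hT : (Kc a 0).ord (T a) = 1)
    (s : ↥(riemannRochSpace (baseDiv Kc))) :
    evalL Kc T a 0 s = 0 ↔ (s : F) ∈ (Kc a 0).toValuationSubring := by
  have hT0 : T a ≠ 0 := by
    intro h0
    rw [h0, Place.ord_zero] at hT
    exact absurd hT (by norm_num)
  rcases eq_or_ne (s : F) 0 with hs | hs
  · have hs' : s = 0 := Subtype.ext hs
    rw [hs', map_zero]
    simp
  · rw [evalL_eq_zero_iff Kc T hg hT0 s hs, ← hg.ord, hT, Place_mem_iff _ hs]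
    omega

/-- Degree count: a nonzero section vanishing at the chart points `κ_a (τ a)` has exactly these
zeros. -/
theorem ord_add_baseDiv_eq [HasPrincipalDivisors ℂ F] (τ : ι → ℂ) (hgood : ∀ a, Good Kc T a (τ a)) (hT : ∀ a, T a ≠ 0)
    (hinj : Function.Injective (fun a => Kc a (τ a)))
    (s : ↥(riemannRochSpace (baseDiv Kc))) (hs : (s : F) ≠ 0)
    (hvan : ∀ a, evalL Kc T a (τ a) s = 0) (v : Place ℂ F) :
    v.ord (s : F) + baseDiv Kc v = (∑ a, Finsupp.single (Kc a (τ a)) (1 : ℤ)) v := by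
  classical
  obtain ⟨D, hD, hdeg⟩ := HasPrincipalDivisors.exists_divisor (K := ℂ) (s : F) hs
  set N : Divisor ℂ F := ∑ a, Finsupp.single (Kc a (τ a)) (1 : ℤ) with hN
  have hE : D + baseDiv Kc - N = 0 := by
    have hdeg1 : ∀ v : Place ℂ F, v.deg = 1 := fun v => v.deg_eq_one_of_isAlgClosed_of_finite
    apply eq_zero_of_nonneg_of_degree_eq_zero hdeg1
    · intro w
      rw [Finsupp.sub_apply, Finsupp.add_apply, hD w]
      by_cases hw : ∃ a, Kc a (τ a) = w
      · obtain ⟨a, rfl⟩ := hw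
        have h1 : N (Kc a (τ a)) = 1 := sum_single_apply_self (fun a => Kc a (τ a)) hinj a
        have h2 := (evalL_eq_zero_iff Kc T (hgood a) (hT a) s hs).mp (hvan a)
        rw [h1]
        omega
      · have h1 : N w = 0 :=
          sum_single_apply_of_ne (fun a => Kc a (τ a)) w fun b hb => hw ⟨b, hb⟩
        have h2 := (mem_riemannRochSpace_iff.mp s.2 w).resolve_left hs
        rw [h1]
        omega
    · rw [map_sub, map_add, hdeg, hN, degree_sum_single hdeg1]
      unfold baseDiv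
      rw [degree_sum_single hdeg1]
      ring
  have := congrArg (fun E : Divisor ℂ F => E v) hE
  simp only [Finsupp.sub_apply, Finsupp.add_apply, Finsupp.zero_apply] at this
  rw [hD v] at this
  omega

end Family

section Final

variable {F : Type*} [Field F] [Algebra ℂ F] [HasPrincipalDivisors ℂ F]
  [∀ v : Place ℂ F, Module.Finite ℂ v.ResidueField]

/-- **Concrete D1-D4.**  `κ i`, `κ' i`, `κR j` are chart germs at the points of three divisors
`E₀ = ∑ [κ i 0]`, `E₁ = ∑ [κ' i 0]`, `R₀ = ∑ [κR j 0]` of degree `g` (all points distinct, charts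
eventually disjoint), `M = E₀ + E₁ + R₀`, with `l(M) ≥ 2g + 1` and `L(E₀)`, `L(R₀)` reduced to the
constants.  Then there is `u`, strictly differentiable at `0`, with
`∑ [κ i (u (z,w) i)] - E₀ ∼ (∑ [κ i (z i)] - E₀) + (∑ [κ' i (w i)] - E₁)`. -/
theorem exists_chart_sum {g : ℕ}
    (κ κ' κR : Fin g → ℂ → Place ℂ F)
    (t t' tR : Fin g → F)
    (hκ : ∀ i, IsChartGerm (κ i) (t i)) (hκ' : ∀ i, IsChartGerm (κ' i) (t' i))
    (hκR : ∀ j, IsChartGerm (κR j) (tR j))
    (hdisj : ∀ a b : Fin g ⊕ Fin g ⊕ Fin g, a ≠ b →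
      ∀ᶠ p in 𝓝 ((0 : ℂ), (0 : ℂ)),
        Sum.elim κ (Sum.elim κ' κR) a p.1 ≠ Sum.elim κ (Sum.elim κ' κR) b p.2)
    (hdim : 2 * g + 1 ≤ Module.finrank ℂ ↥(riemannRochSpace
      ((∑ i, Finsupp.single (κ i 0) (1 : ℤ)) + (∑ i, Finsupp.single (κ' i 0) (1 : ℤ))
        + ∑ j, Finsupp.single (κR j 0) (1 : ℤ))))
    (hE₀ : ∀ s ∈ riemannRochSpace (∑ i, Finsupp.single (κ i 0) (1 : ℤ)),
      ∃ c : ℂ, s = algebraMap ℂ F c)
    (hR₀ : ∀ s ∈ riemannRochSpace (∑ j, Finsupp.single (κR j 0) (1 : ℤ)),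
      ∃ c : ℂ, s = algebraMap ℂ F c) :
    ∃ (u : (Fin g → ℂ) × (Fin g → ℂ) → (Fin g → ℂ))
      (u' : ((Fin g → ℂ) × (Fin g → ℂ)) →L[ℂ] (Fin g → ℂ)),
      HasStrictFDerivAt u u' 0 ∧ u 0 = 0 ∧
      ∀ᶠ p in 𝓝 (0 : (Fin g → ℂ) × (Fin g → ℂ)),
        Divisor.IsPrincipal
          (((∑ i, Finsupp.single (κ i (p.1 i)) (1 : ℤ)) + ∑ i, Finsupp.single (κ' i (p.2 i)) (1 : ℤ))
            - ((∑ i, Finsupp.single (κ' i 0) (1 : ℤ)) + ∑ i, Finsupp.single (κ i (u p i)) (1 : ℤ))) := by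
  classical
  set Kc : Fin g ⊕ Fin g ⊕ Fin g → ℂ → Place ℂ F := Sum.elim κ (Sum.elim κ' κR) with hKc
  set T : Fin g ⊕ Fin g ⊕ Fin g → F := Sum.elim t (Sum.elim t' tR) with hT
  have hK : ∀ a, IsChartGerm (Kc a) (T a) := by
    rintro (i | i | j)
    · exact hκ i
    · exact hκ' i
    · exact hκR j
  have hM : ((∑ i, Finsupp.single (κ i 0) (1 : ℤ)) + (∑ i, Finsupp.single (κ' i 0) (1 : ℤ))
        + ∑ j, Finsupp.single (κR j 0) (1 : ℤ)) = baseDiv Kc := by
    unfold baseDiv
    rw [Fintype.sum_sum_type, Fintype.sum_sum_type, add_assoc]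
    rfl
  rw [hM] at hdim
  have : FiniteDimensional ℂ ↥(riemannRochSpace (baseDiv Kc)) :=
    Module.finite_of_finrank_pos (by omega)
  have hev0 := eventually_good Kc T hK hdisj
  have hg0 : ∀ a, Good Kc T a 0 := fun a => (hev0 a).self_of_nhds
  have hone : ∀ a, evalL Kc T a 0 (oneV Kc) = 0 := fun a => evalL_oneV Kc T (hg0 a)
  have hderiv : ∀ a, deriv (fun τ => evalL Kc T a τ (oneV Kc)) 0 ≠ 0 := by
    intro a
    have : (fun τ => evalL Kc T a τ (oneV Kc)) =ᶠ[𝓝 0] id := by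
      filter_upwards [hev0 a] with τ hg
      exact evalL_oneV Kc T hg
    rw [this.deriv_eq, deriv_id]
    exact one_ne_zero
  have hzero : ∀ a (s : ↥(riemannRochSpace (baseDiv Kc))),
      evalL Kc T a 0 s = 0 ↔ (s : F) ∈ (Kc a 0).toValuationSubring :=
    fun a s => evalL_zero_eq_zero_iff Kc T (hg0 a) (hK a).ord_base s
  have hconst : ∀ (s : ↥(riemannRochSpace (baseDiv Kc))) (c : ℂ), (s : F) = algebraMap ℂ F c →
      s = c • oneV Kc := by
    intro s c hc
    refine Subtype.ext ?_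
    rw [hc, Submodule.coe_smul, coe_oneV, Algebra.algebraMap_eq_smul_one]
  have hfr : Module.finrank ℂ ((Fin g → ℂ) × (Fin g → ℂ)) + 1
      ≤ Module.finrank ℂ ↥(riemannRochSpace (baseDiv Kc)) := by
    rw [Module.finrank_prod, Module.finrank_fintype_fun_eq_card, Fintype.card_fin]
    omega
  have hsurjAB : Function.Surjective (fun s : ↥(riemannRochSpace (baseDiv Kc)) =>
      ((fun i => evalL Kc T (Sum.inl i) 0 s, fun i => evalL Kc T (Sum.inr (Sum.inl i)) 0 s) :
        (Fin g → ℂ) × (Fin g → ℂ))) := by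
    refine surjective_of_ker_le
      (LinearMap.prod (LinearMap.pi fun i => evalL Kc T (Sum.inl i) 0)
        (LinearMap.pi fun i => evalL Kc T (Sum.inr (Sum.inl i)) 0)) (oneV Kc) ?_ hfr
    intro s hs
    have hs1 : ∀ i, evalL Kc T (Sum.inl i) 0 s = 0 := fun i => congrFun (congrArg Prod.fst hs) i
    have hs2 : ∀ i, evalL Kc T (Sum.inr (Sum.inl i)) 0 s = 0 :=
      fun i => congrFun (congrArg Prod.snd hs) i
    have hsR : (s : F) ∈ riemannRochSpace (∑ j, Finsupp.single (κR j 0) (1 : ℤ)) := by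
      refine mem_rrSpace_of_regular _ ((∑ i, Finsupp.single (κ i 0) (1 : ℤ))
        + (∑ i, Finsupp.single (κ' i 0) (1 : ℤ))) ?_ (sum_single_nonneg _) ?_
      · rw [add_comm (∑ j, Finsupp.single (κR j 0) (1 : ℤ)), hM]
        exact s.2
      · intro v hv
        by_cases h1 : ∃ i, κ i 0 = v
        · obtain ⟨i, rfl⟩ := h1
          exact (hzero (Sum.inl i) s).mp (hs1 i)
        by_cases h2 : ∃ i, κ' i 0 = v
        · obtain ⟨i, rfl⟩ := h2
          exact (hzero (Sum.inr (Sum.inl i)) s).mp (hs2 i)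
        · exfalso
          apply hv
          rw [Finsupp.add_apply,
            sum_single_apply_of_ne (fun i => κ i 0) v (fun b hb => h1 ⟨b, hb⟩),
            sum_single_apply_of_ne (fun i => κ' i 0) v (fun b hb => h2 ⟨b, hb⟩), add_zero]
    obtain ⟨c, hc⟩ := hR₀ _ hsR
    exact ⟨c, hconst s c hc⟩
  have hsurjBC : Function.Surjective (fun s : ↥(riemannRochSpace (baseDiv Kc)) =>
      ((fun i => evalL Kc T (Sum.inr (Sum.inl i)) 0 s,
        fun j => evalL Kc T (Sum.inr (Sum.inr j)) 0 s) : (Fin g → ℂ) × (Fin g → ℂ))) := by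
    refine surjective_of_ker_le
      (LinearMap.prod (LinearMap.pi fun i => evalL Kc T (Sum.inr (Sum.inl i)) 0)
        (LinearMap.pi fun j => evalL Kc T (Sum.inr (Sum.inr j)) 0)) (oneV Kc) ?_ hfr
    intro s hs
    have hs1 : ∀ i, evalL Kc T (Sum.inr (Sum.inl i)) 0 s = 0 :=
      fun i => congrFun (congrArg Prod.fst hs) i
    have hs2 : ∀ j, evalL Kc T (Sum.inr (Sum.inr j)) 0 s = 0 :=
      fun j => congrFun (congrArg Prod.snd hs) j
    have hsE : (s : F) ∈ riemannRochSpace (∑ i, Finsupp.single (κ i 0) (1 : ℤ)) := by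
      refine mem_rrSpace_of_regular _ ((∑ i, Finsupp.single (κ' i 0) (1 : ℤ))
        + (∑ j, Finsupp.single (κR j 0) (1 : ℤ))) ?_ (sum_single_nonneg _) ?_
      · rw [← add_assoc, hM]
        exact s.2
      · intro v hv
        by_cases h1 : ∃ i, κ' i 0 = v
        · obtain ⟨i, rfl⟩ := h1
          exact (hzero (Sum.inr (Sum.inl i)) s).mp (hs1 i)
        by_cases h2 : ∃ j, κR j 0 = v
        · obtain ⟨j, rfl⟩ := h2
          exact (hzero (Sum.inr (Sum.inr j)) s).mp (hs2 j)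
        · exfalso
          apply hv
          rw [Finsupp.add_apply,
            sum_single_apply_of_ne (fun i => κ' i 0) v (fun b hb => h1 ⟨b, hb⟩),
            sum_single_apply_of_ne (fun j => κR j 0) v (fun b hb => h2 ⟨b, hb⟩), add_zero]
    obtain ⟨c, hc⟩ := hE₀ _ hsE
    exact ⟨c, hconst s c hc⟩
  obtain ⟨u, ρ, s₁, s₂, u', hu, hu0, hρ, hρ0, hev⟩ :=
    exists_moving_sections
      (fun i τ => evalL Kc T (Sum.inl i) τ) (fun i τ => evalL Kc T (Sum.inr (Sum.inl i)) τ)
      (fun j τ => evalL Kc T (Sum.inr (Sum.inr j)) τ)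
      (fun i s => analyticAt_evalL Kc T hK hdisj _ s)
      (fun i s => analyticAt_evalL Kc T hK hdisj _ s)
      (fun j s => analyticAt_evalL Kc T hK hdisj _ s)
      (oneV Kc) (fun h => one_ne_zero (α := F) (congrArg Subtype.val h))
      (fun i => hone _) (fun i => hone _) (fun j => hone _)
      (fun i => hderiv _) (fun j => hderiv _) hsurjAB hsurjBC
  refine ⟨u, u', hu, hu0, ?_⟩
  -- the two families of chart coordinates
  set τ₁ : (Fin g → ℂ) × (Fin g → ℂ) → Fin g ⊕ Fin g ⊕ Fin g → ℂ :=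
    fun p => Sum.elim p.1 (Sum.elim p.2 (ρ p)) with hτ₁
  set τ₂ : (Fin g → ℂ) × (Fin g → ℂ) → Fin g ⊕ Fin g ⊕ Fin g → ℂ :=
    fun p => Sum.elim (u p) (Sum.elim (0 : Fin g → ℂ) (ρ p)) with hτ₂
  have hρt : ∀ j, Tendsto (fun p => ρ p j) (𝓝 0) (𝓝 0) := by
    intro j
    have : ContinuousAt (fun p => ρ p j) 0 := (continuous_apply j).continuousAt.comp hρ
    have h2 := this.tendsto
    rwa [hρ0] at h2
  have hut : ∀ i, Tendsto (fun p => u p i) (𝓝 0) (𝓝 0) := by
    intro i
    have : ContinuousAt (fun p => u p i) 0 := (continuous_apply i).continuousAt.comp hu.continuousAt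
    have h2 := this.tendsto
    rwa [hu0] at h2
  have h1t : ∀ i, Tendsto (fun p : (Fin g → ℂ) × (Fin g → ℂ) => p.1 i) (𝓝 0) (𝓝 0) := by
    intro i
    have : Continuous (fun p : (Fin g → ℂ) × (Fin g → ℂ) => p.1 i) :=
      (continuous_apply i).comp continuous_fst
    simpa using this.tendsto 0
  have h2t : ∀ i, Tendsto (fun p : (Fin g → ℂ) × (Fin g → ℂ) => p.2 i) (𝓝 0) (𝓝 0) := by
    intro i
    have : Continuous (fun p : (Fin g → ℂ) × (Fin g → ℂ) => p.2 i) :=
      (continuous_apply i).comp continuous_snd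
    simpa using this.tendsto 0
  have hτ₁t : ∀ a, Tendsto (fun p => τ₁ p a) (𝓝 0) (𝓝 0) := by
    rintro (i | i | j)
    · exact h1t i
    · exact h2t i
    · exact hρt j
  have hτ₂t : ∀ a, Tendsto (fun p => τ₂ p a) (𝓝 0) (𝓝 0) := by
    rintro (i | i | j)
    · exact hut i
    · exact tendsto_const_nhds
    · exact hρt j
  filter_upwards [hev, eventually_good_comp Kc T 0 τ₁ hτ₁t hK hdisj,
    eventually_injective_comp Kc 0 τ₁ hτ₁t hdisj, eventually_good_comp Kc T 0 τ₂ hτ₂t hK hdisj,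
    eventually_injective_comp Kc 0 τ₂ hτ₂t hdisj] with p hp hg1 hi1 hg2 hi2
  obtain ⟨hs1, hs2, h1A, h1B, h1C, h2B, h2C, h2A⟩ := hp
  have hs1F : ((s₁ p : ↥(riemannRochSpace (baseDiv Kc))) : F) ≠ 0 := fun h => hs1 (Subtype.ext h)
  have hs2F : ((s₂ p : ↥(riemannRochSpace (baseDiv Kc))) : F) ≠ 0 := fun h => hs2 (Subtype.ext h)
  have hTne : ∀ a, T a ≠ 0 := fun a => (hK a).ne_zero
  have key1 := ord_add_baseDiv_eq Kc T (τ₁ p) hg1 hTne hi1 (s₁ p) hs1F (by
    rintro (i | i | j)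
    · exact h1A i
    · exact h1B i
    · exact h1C j)
  have key2 := ord_add_baseDiv_eq Kc T (τ₂ p) hg2 hTne hi2 (s₂ p) hs2F (by
    rintro (i | i | j)
    · exact h2A i
    · exact h2B i
    · exact h2C j)
  have e1 : (∑ a, Finsupp.single (Kc a (τ₁ p a)) (1 : ℤ))
      = (∑ i, Finsupp.single (κ i (p.1 i)) (1 : ℤ)) + ((∑ i, Finsupp.single (κ' i (p.2 i)) (1 : ℤ))
        + ∑ j, Finsupp.single (κR j (ρ p j)) (1 : ℤ)) := by
    rw [Fintype.sum_sum_type, Fintype.sum_sum_type]
    rfl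
  have e2 : (∑ a, Finsupp.single (Kc a (τ₂ p a)) (1 : ℤ))
      = (∑ i, Finsupp.single (κ i (u p i)) (1 : ℤ)) + ((∑ i, Finsupp.single (κ' i 0) (1 : ℤ))
        + ∑ j, Finsupp.single (κR j (ρ p j)) (1 : ℤ)) := by
    rw [Fintype.sum_sum_type, Fintype.sum_sum_type]
    rfl
  refine ⟨(s₁ p : F) * (s₂ p : F)⁻¹, mul_ne_zero hs1F (inv_ne_zero hs2F), fun v => ?_⟩
  rw [Place.ord_mul _ hs1F (inv_ne_zero hs2F), Place.ord_inv]
  have k1 := key1 v
  have k2 := key2 v
  rw [e1] at k1
  rw [e2] at k2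
  simp only [Finsupp.add_apply, Finsupp.sub_apply] at k1 k2 ⊢
  omega

end Final

end Fermat.Agent.S27.DGlue5906
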