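import Mathlib
import Fermat.Prelude.Def_AlgebraicCurve_IsCurveOver
import Fermat.Prelude.Def_AlgebraicCurve_Repartitions
import Fermat.Agent.S24.A564.PlaceBasic

/-!
# S27, package D (concrete layer): the value of a function at a place

`IsValue v f c` : `f - c` lies in the maximal ideal of the place `v`.
For an algebraically closed constant field with finite residue fields every `f` regular at `v`
has a unique value.
-/

set_option autoImplicit false

namespace Fermat.Agent.S27.DGlue5906

open AlgebraicCurve Fermat.Agent.S24.A564.SO

variable {K F : Type*} [Field K] [Field F] [Algebra K F]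

/-- `c` is the value of `f` at the place `v` (`f - c` lies in the maximal ideal of `v`). -/
def IsValue (v : Place K F) (f : F) (c : K) : Prop :=
  v.adicValuation (f - algebraMap K F c) < 1

theorem adicValuation_lt_one_iff (v : Place K F) {f : F} :
    v.adicValuation f < 1 ↔ f = 0 ∨ 0 < v.ord f := by
  rcases eq_or_ne f 0 with rfl | hf
  · simp
  · rw [v.adicValuation_eq_exp_neg_ord hf, ← WithZero.exp_zero, WithZero.exp_lt_exp]
    constructor
    · intro h; right; omega
    · rintro (h | h)
      · exact absurd h hf
      · omega

theorem mem_of_adicValuation_le_one (v : Place K F) {f : F} (h : v.adicValuation f ≤ 1) :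
    f ∈ v.toValuationSubring := by
  rcases v.adicValuation_le_one_iff.mp h with rfl | h
  · exact zero_mem _
  · exact Place_mem_of_ord_nonneg v h

theorem mem_iff_adicValuation_le_one (v : Place K F) {f : F} :
    f ∈ v.toValuationSubring ↔ v.adicValuation f ≤ 1 :=
  ⟨v.adicValuation_le_one_of_mem, mem_of_adicValuation_le_one v⟩

theorem adicValuation_algebraMap_eq_one (v : Place K F) {c : K} (hc : c ≠ 0) :
    v.adicValuation (algebraMap K F c) = 1 := by
  have hc' : algebraMap K F c ≠ 0 := by
    simpa using hc
  rw [v.adicValuation_eq_exp_neg_ord hc', Place_ord_algebraMap v c]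
  simp

namespace IsValue

variable {v : Place K F} {f f' : F} {c c' : K}

theorem mem (h : IsValue v f c) : f ∈ v.toValuationSubring := by
  have h1 : f - algebraMap K F c ∈ v.toValuationSubring :=
    mem_of_adicValuation_le_one v h.le
  have := add_mem h1 (v.algebraMap_mem' c)
  simpa using this

theorem unique (h : IsValue v f c) (h' : IsValue v f c') : c = c' := by
  by_contra hne
  have hd : c' - c ≠ 0 := sub_ne_zero.mpr (Ne.symm hne)
  have h1 : v.adicValuation (algebraMap K F (c' - c)) = 1 :=
    adicValuation_algebraMap_eq_one v hd
  have h2 : algebraMap K F (c' - c) = (f - algebraMap K F c) - (f - algebraMap K F c') := by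
    rw [map_sub]; ring
  have h3 : v.adicValuation (algebraMap K F (c' - c)) < 1 := by
    rw [h2]
    exact lt_of_le_of_lt (Valuation.map_sub _ _ _) (max_lt h h')
  rw [h1] at h3
  exact lt_irrefl _ h3

theorem const (v : Place K F) (c : K) : IsValue v (algebraMap K F c) c := by
  unfold IsValue
  simp

theorem add (h : IsValue v f c) (h' : IsValue v f' c') : IsValue v (f + f') (c + c') := by
  unfold IsValue at *
  have : f + f' - algebraMap K F (c + c') = (f - algebraMap K F c) + (f' - algebraMap K F c') := by
    rw [map_add]; ring
  rw [this]
  exact lt_of_le_of_lt (Valuation.map_add _ _ _) (max_lt h h')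

theorem mul (h : IsValue v f c) (h' : IsValue v f' c') : IsValue v (f * f') (c * c') := by
  have hf' : v.adicValuation f' ≤ 1 := v.adicValuation_le_one_of_mem h'.mem
  have hc : v.adicValuation (algebraMap K F c) ≤ 1 := v.adicValuation_algebraMap_le_one c
  unfold IsValue at *
  have : f * f' - algebraMap K F (c * c')
      = (f - algebraMap K F c) * f' + algebraMap K F c * (f' - algebraMap K F c') := by
    rw [map_mul]; ring
  rw [this]
  refine lt_of_le_of_lt (Valuation.map_add _ _ _) (max_lt ?_ ?_)
  · rw [map_mul]
    calc v.adicValuation (f - algebraMap K F c) * v.adicValuation f'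
        ≤ v.adicValuation (f - algebraMap K F c) * 1 := by gcongr
      _ = v.adicValuation (f - algebraMap K F c) := mul_one _
      _ < 1 := h
  · rw [map_mul]
    calc v.adicValuation (algebraMap K F c) * v.adicValuation (f' - algebraMap K F c')
        ≤ 1 * v.adicValuation (f' - algebraMap K F c') := by gcongr
      _ = v.adicValuation (f' - algebraMap K F c') := one_mul _
      _ < 1 := h'

theorem smul (a : K) (h : IsValue v f c) : IsValue v (a • f) (a * c) := by
  rw [Algebra.smul_def]
  exact (IsValue.const v a).mul h

theorem zero_iff : IsValue v f 0 ↔ f = 0 ∨ 0 < v.ord f := by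
  unfold IsValue
  rw [map_zero, sub_zero]
  exact adicValuation_lt_one_iff v

end IsValue

/-- Existence of values for an algebraically closed constant field. -/
theorem exists_isValue [IsAlgClosed K] (v : Place K F) [Module.Finite K v.ResidueField]
    {f : F} (hf : f ∈ v.toValuationSubring) : ∃ c : K, IsValue v f c := by
  have : Algebra.IsIntegral K v.ResidueField := Algebra.IsIntegral.of_finite K v.ResidueField
  have hbij : Function.Bijective (algebraMap K v.ResidueField) :=
    IsAlgClosed.algebraMap_bijective_of_isIntegral
  obtain ⟨c, hc⟩ := hbij.2 (IsLocalRing.residue v.toValuationSubring ⟨f, hf⟩)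
  refine ⟨c, ?_⟩
  have hmem : (⟨f, hf⟩ - algebraMap K v.toValuationSubring c : v.toValuationSubring)
      ∈ IsLocalRing.maximalIdeal v.toValuationSubring := by
    rw [← IsLocalRing.residue_eq_zero_iff, map_sub, sub_eq_zero]
    rw [← hc]
    rfl
  have hnu : ¬ IsUnit (⟨f, hf⟩ - algebraMap K v.toValuationSubring c : v.toValuationSubring) := by
    rwa [IsLocalRing.mem_maximalIdeal, mem_nonunits_iff] at hmem
  have hcoe : ((⟨f, hf⟩ - algebraMap K v.toValuationSubring c : v.toValuationSubring) : F)
      = f - algebraMap K F c := rfl
  have hle : v.adicValuation (f - algebraMap K F c) ≤ 1 := by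
    rw [← hcoe]
    exact v.adicValuation_le_one_of_mem (Subtype.mem _)
  have hne : v.adicValuation (f - algebraMap K F c) ≠ 1 := by
    rw [← hcoe, Ne, v.adicValuation_coe_eq_one_iff]
    exact hnu
  exact lt_of_le_of_ne hle hne

open Classical in
/-- The value of `f` at `v` (junk value `0` if `f` has no value at `v`). -/
noncomputable def valueAt (v : Place K F) (f : F) : K :=
  if h : ∃ c : K, IsValue v f c then h.choose else 0

theorem valueAt_eq {v : Place K F} {f : F} {c : K} (h : IsValue v f c) : valueAt v f = c := by
  have hex : ∃ c : K, IsValue v f c := ⟨c, h⟩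
  unfold valueAt
  rw [dif_pos hex]
  exact hex.choose_spec.unique h

theorem isValue_valueAt [IsAlgClosed K] (v : Place K F) [Module.Finite K v.ResidueField]
    {f : F} (hf : f ∈ v.toValuationSubring) : IsValue v f (valueAt v f) := by
  obtain ⟨c, hc⟩ := exists_isValue v hf
  rwa [valueAt_eq hc]

end Fermat.Agent.S27.DGlue5906
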